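/-
S52 library, block Mod5 (helper6): **the mod-`p` determinant and the fixed point of complex
conjugation.**

For an integral Weierstrass model `W` with `Δ ≠ 0`, a prime `p` and `E = W_ℚ`:

* `det_tateMatZp` / `det_levelMat_one`: the determinant of the Galois action on `T_p E`, resp. on
  `E[p]` (in the chosen bases of `S58lib.Tate`), is the `p`-adic, resp. mod-`p`, cyclotomic character
  (from `S35lib.Gal.det_eq_chiAdic` and `Tate.tateFrob_of_frobCore Cnt.frobCore`);
* `det_levelMat_one_complexConjugation`: it is `-1` at complex conjugation;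
* `exists_order_p_fixed_of_involution`: an element `σ` acting as an involution on `E[p]` with
  determinant `-1` (`p` odd) fixes a point of exact order `p`;
* `exists_order_p_fixed_complexConjugation`: complex conjugation fixes a point of exact order `p`;
* `smul_eq_smul_of_coords`: two elements of `G_ℚ` which agree on the coordinates of `P` agree on `P`.
-/
import Mathlib
import Fermat.Agent.S58lib.Tate.Transport
import Fermat.Agent.S58lib.Cnt.FrobCore
import Fermat.Agent.S58lib.Cmp.Conj

set_option autoImplicit false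
set_option linter.unusedSectionVars false
set_option linter.style.haveILetI false

noncomputable section

namespace Fermat.Agent.S52lib.Mod5

open WeierstrassCurve WeierstrassCurve.Affine WeierstrassCurve.Affine.Point Polynomial
open Fermat.Agent.S58lib.Tate Fermat.Agent.S29lib.S30

variable (W : WeierstrassCurve ℤ) (hΔ : W.Δ ≠ 0) (p : ℕ) [hp : Fact p.Prime]

/-- the finite set of primes excluded in the Frobenius hypothesis: `p` and the bad primes. -/
def badSet : Finset ℕ := insert p W.Δ.natAbs.primeFactors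

lemma not_dvd_of_not_mem_badSet {ℓ : ℕ} (hℓ : ℓ.Prime) (h : ℓ ∉ badSet W p) (hΔ : W.Δ ≠ 0) :
    ℓ ≠ p ∧ ¬ (ℓ : ℤ) ∣ W.Δ := by
  refine ⟨fun h' => h (h' ▸ Finset.mem_insert_self _ _), fun hd => h ?_⟩
  apply Finset.mem_insert_of_mem
  rw [Nat.mem_primeFactors]
  refine ⟨hℓ, ?_, by simpa using hΔ⟩
  exact Int.natCast_dvd.mp hd

/-- ring homomorphisms `ℤ_[p] → ℤ/p^n` are unique. -/
lemma ringHom_zmodPow_ext (n : ℕ) (f g : ℤ_[p] →+* ZMod (p ^ n)) : f = g := by
  ext x
  have h := PadicInt.appr_spec n x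
  obtain ⟨y, hy⟩ := Ideal.mem_span_singleton.mp h
  have hx : x = (x.appr n : ℤ_[p]) + (p : ℤ_[p]) ^ n * y := by linear_combination hy
  have hp0 : ((p : ZMod (p ^ n))) ^ n = 0 := by
    rw [← Nat.cast_pow]
    exact ZMod.natCast_self _
  rw [hx, map_add, map_add, map_mul, map_mul, map_pow, map_pow, map_natCast, map_natCast,
    map_natCast, map_natCast, hp0, zero_mul, zero_mul]

/-- **`det = χ_p` on the `p`-adic Tate module** (matrix form over `ℤ_[p]`). -/
theorem det_tateMatZp (σ : GQ) :
    (tateMatZp (WQ' W) p (WQ'_Δ_ne_zero hΔ) σ).det = ((chiZp p σ : ℤ_[p]ˣ) : ℤ_[p]) := by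
  have hTF := tateFrob_of_frobCore Fermat.Agent.S58lib.Cnt.frobCore W hΔ
  have h := Fermat.Agent.S35lib.Gal.det_eq_chiAdic p (natCast_mem_maximalIdeal_padicInt p)
    (tateFam W hΔ p) (badSet W p) ?_ σ
  · rw [tateFam_apply, tateRep_det, coe_chiAdic] at h
    -- `padicToRing` into `ℤ_[p]` is the identity
    have hid : ∀ x : ℤ_[p], padicToRing p (IsLocalRing.maximalIdeal ℤ_[p])
        (natCast_mem_maximalIdeal_padicInt p) x = x := by
      intro x
      apply PadicInt.ext_of_toZModPow.mp
      intro n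
      exact RingHom.congr_fun (ringHom_zmodPow_ext p n ((PadicInt.toZModPow n).comp
        (padicToRing p (IsLocalRing.maximalIdeal ℤ_[p]) (natCast_mem_maximalIdeal_padicInt p)))
        (PadicInt.toZModPow n)) x
    rw [hid] at h
    exact h
  · intro ℓ hℓ hℓS A hA φ hφ
    obtain ⟨hℓp, hgood⟩ := not_dvd_of_not_mem_badSet W p hℓ hℓS hΔ
    exact ⟨_, hTF p ℓ hℓ hℓp hgood A hA φ hφ⟩

/-- **(F1) `det = χ_p mod p^k` on `E[p^k]`** (in the chosen bases). -/
theorem det_levelMat (k : ℕ) (σ : GQ) :
    (levelMat (WQ' W) p (WQ'_Δ_ne_zero hΔ) k σ).det =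
      PadicInt.toZModPow k ((chiZp p σ : ℤ_[p]ˣ) : ℤ_[p]) := by
  rw [← det_tateMatZp W hΔ p σ, ← tateMatZp_map_toZModPow, RingHom.map_det]
  rfl

/-- (F1) at complex conjugation: `det = -1` on `E[p^k]`. -/
theorem det_levelMat_complexConjugation (k : ℕ) :
    (levelMat (WQ' W) p (WQ'_Δ_ne_zero hΔ) k complexConjugation).det = -1 := by
  rw [det_levelMat W hΔ p k, Fermat.Agent.S58lib.Cmp.chiZp_complexConjugation, Units.val_neg,
    Units.val_one, map_neg, map_one]

/-- a point killed by `p` and nonzero has exact order `p`. -/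
lemma addOrderOf_eq_prime_of_smul {A : Type*} [AddGroup A] {P : A} (h0 : P ≠ 0)
    (hP : p • P = 0) : addOrderOf P = p :=
  addOrderOf_eq_prime hP h0

/-- **(F2)** an element of `G_ℚ` acting as an involution of determinant `-1` on `E[p]`, `p` odd,
fixes a point of exact order `p`. -/
theorem exists_order_p_fixed_of_involution (hp2 : p ≠ 2) (σ : GQ)
    (hσ : ∀ P : Pts (WQ' W), p • P = 0 → σ • σ • P = P)
    (hdet : (levelMat (WQ' W) p (WQ'_Δ_ne_zero hΔ) 1 σ).det = -1) :
    ∃ P : Pts (WQ' W), addOrderOf P = p ∧ σ • P = P := by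
  classical
  by_contra hcon
  push Not at hcon
  have hΔ' := WQ'_Δ_ne_zero hΔ
  -- `σ` acts as `-1` on `E[p]`
  have hneg : ∀ P : Pts (WQ' W), p • P = 0 → σ • P = -P := by
    intro P hP
    by_contra hne
    set Q : Pts (WQ' W) := P + σ • P with hQ
    have hQ0 : Q ≠ 0 := by
      intro h0
      apply hne
      rw [hQ] at h0
      exact (neg_eq_of_add_eq_zero_right h0).symm
    have hpQ : p • Q = 0 := by
      have h1 : p • σ • P = σ • (p • P) :=
        ((DistribSMul.toAddMonoidHom (Pts (WQ' W)) σ).map_nsmul _ _).symm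
      have h2 : σ • (0 : Pts (WQ' W)) = 0 :=
        (DistribSMul.toAddMonoidHom (Pts (WQ' W)) σ).map_zero
      rw [hQ, nsmul_add, hP, zero_add, h1, hP, h2]
    have hσQ : σ • Q = Q := by
      have h1 : σ • (P + σ • P) = σ • P + σ • σ • P :=
        (DistribSMul.toAddMonoidHom (Pts (WQ' W)) σ).map_add _ _
      rw [hQ, h1, hσ P hP, add_comm]
    exact hcon Q (addOrderOf_eq_prime_of_smul p hQ0 hpQ) hσQ
  -- hence the matrix is `-1`
  have hmat : levelMat (WQ' W) p hΔ' 1 σ = -1 := by
    have hv : ∀ v : Fin 2 → ZMod (p ^ 1), (levelMat (WQ' W) p hΔ' 1 σ).mulVec v = -v := by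
      intro v
      obtain ⟨x, rfl⟩ := (levelEquiv (WQ' W) p hΔ' 1).surjective v
      rw [levelMat_mulVec]
      have hx : p • (x : Pts (WQ' W)) = 0 := by
        have := x.2
        rwa [mem_tors, pow_one] at this
      have : actHom (WQ' W) p 1 σ x = -x := by
        apply Subtype.ext
        rw [actHom_coe, hneg _ hx]
        rfl
      rw [this, map_neg]
    ext i j
    have := congrFun (hv (Pi.single j 1)) i
    rw [Matrix.mulVec_single_one] at this
    simpa [Matrix.one_apply, Pi.single_apply, eq_comm] using this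
  rw [hmat, Matrix.det_neg, Fintype.card_fin, Matrix.det_one] at hdet
  -- `1 = -1` in `ℤ/p` forces `p = 2`
  have h2 : ((2 : ℕ) : ZMod (p ^ 1)) = 0 := by
    have : (1 : ZMod (p ^ 1)) + 1 = 0 := by
      have h1 : ((-1 : ZMod (p ^ 1))) ^ 2 * 1 = 1 := by ring
      rw [h1] at hdet
      linear_combination hdet
    rw [Nat.cast_ofNat, ← one_add_one_eq_two]
    exact this
  rw [ZMod.natCast_eq_zero_iff, pow_one] at h2
  exact hp2 ((Nat.prime_dvd_prime_iff_eq hp.out Nat.prime_two).mp h2)

include hΔ in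
/-- **(F2) complex conjugation fixes a point of exact order `p`** (`p` odd). -/
theorem exists_order_p_fixed_complexConjugation (hp2 : p ≠ 2) :
    ∃ P : Pts (WQ' W), addOrderOf P = p ∧ complexConjugation • P = P := by
  apply exists_order_p_fixed_of_involution W hΔ p hp2 complexConjugation
  · intro P _
    rw [← mul_smul, complexConjugation_mul_self, one_smul]
  · exact det_levelMat_complexConjugation W hΔ p 1

/-- **(F3)** two elements of `G_ℚ` which agree on the coordinates of `P` agree on `P`. -/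
theorem smul_eq_smul_of_coords (φ σ : GQ) (P : Pts (WQ' W))
    (hx : φ (xCo (WQ' W) P) = σ (xCo (WQ' W) P))
    (hy : φ (yCo (WQ' W) P) = σ (yCo (WQ' W) P)) : φ • P = σ • P := by
  have h : (σ⁻¹ * φ) • P = P := by
    apply smul_eq_self_of_coords
    · show σ⁻¹ (φ _) = _
      rw [hx]
      exact σ.symm_apply_apply _
    · show σ⁻¹ (φ _) = _
      rw [hy]
      exact σ.symm_apply_apply _
  rw [mul_smul] at h
  have := congrArg (fun Q => σ • Q) h
  simpa using this

end Fermat.Agent.S52lib.Mod5
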