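/-
S52 library, block Mod5 (helper6): **inertia at `q ≠ p` acts on `E[p]` through a `p`-group.**

For a semistable integral model `W` (`Δ ≠ 0`), an odd prime `p`, a prime `q ≠ p`, a place `A ∣ q` of
`ℚ̄` and `σ` in the inertia group of `A`:

* `levelMat_sub_one_sq_of_inertia`: `(M_k(σ) - 1)² = 0` for the matrix `M_k(σ)` of `σ` on `E[p^k]`;
* `inertia_pow_smul_eq_self`: `σ ^ p` fixes every point of `E[p]`.

(From `Tr.tateUnip_of_multFixed`: the `p`-adic Tate module is unipotent on inertia.)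
Also the small API `levelMat_one'`, `levelMat_mul'`, `levelMat_pow'`,
`smul_eq_self_of_levelMat_eq_one` for the level matrices of `S58lib.Tate`.
-/
import Mathlib
import Fermat.Agent.S58lib.Assemble
import Fermat.Agent.S58lib.Cnt.FrobCore

set_option autoImplicit false
set_option linter.unusedSectionVars false
set_option linter.style.haveILetI false

noncomputable section

namespace Fermat.Agent.S52lib.Mod5

open WeierstrassCurve WeierstrassCurve.Affine WeierstrassCurve.Affine.Point Polynomial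
open Fermat.Agent.S58lib.Tate Fermat.Agent.S29lib.S30

section api

variable (E : WeierstrassCurve ℚ) (p : ℕ) [hp : Fact p.Prime] (hΔ : E.Δ ≠ 0)

lemma levelMat_one' (k : ℕ) : levelMat E p hΔ k 1 = 1 :=
  (tateSystem E p hΔ).galMat_one k

lemma levelMat_mul' (k : ℕ) (σ τ : GQ) :
    levelMat E p hΔ k (σ * τ) = levelMat E p hΔ k σ * levelMat E p hΔ k τ :=
  (tateSystem E p hΔ).galMat_mul k σ τ

lemma levelMat_pow' (k : ℕ) (σ : GQ) (n : ℕ) :
    levelMat E p hΔ k (σ ^ n) = levelMat E p hΔ k σ ^ n := by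
  induction n with
  | zero => rw [pow_zero, pow_zero, levelMat_one']
  | succ n ih => rw [pow_succ, pow_succ, levelMat_mul', ih]

/-- if the level matrix of `σ` is `1` then `σ` fixes `E[p^k]`. -/
theorem smul_eq_self_of_levelMat_eq_one (k : ℕ) (σ : GQ) (h : levelMat E p hΔ k σ = 1)
    (P : Pts E) (hP : (p ^ k) • P = 0) : σ • P = P := by
  have hP' : P ∈ tors (Pts E) p k := mem_tors.mpr hP
  set x : tors (Pts E) p k := ⟨P, hP'⟩ with hx
  have h1 := levelMat_mulVec E p hΔ k σ x
  rw [h, Matrix.one_mulVec] at h1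
  have h2 := (levelEquiv E p hΔ k).injective h1
  have h3 := congrArg (fun y : tors (Pts E) p k => (y : Pts E)) h2
  exact h3.symm

end api

variable (W : WeierstrassCurve ℤ) (hΔ : W.Δ ≠ 0) (p : ℕ) [hp : Fact p.Prime]

/-- a unipotent characteristic polynomial on `T_p` gives `(M_k(σ) - 1)² = 0` on every level. -/
theorem levelMat_sub_one_sq_of_charpoly (σ : GQ)
    (h : LinearMap.charpoly ((tateFam W hΔ p).ρ σ) = (X - 1) ^ 2) (k : ℕ) :
    (levelMat (WQ' W) p (WQ'_Δ_ne_zero hΔ) k σ - 1) ^ 2 = 0 := by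
  set M := tateMatZp (WQ' W) p (WQ'_Δ_ne_zero hΔ) σ with hM
  have hch : M.charpoly = (X - 1) ^ 2 := by
    rw [← h, tateFam_apply, tateRep_charpoly]
    rfl
  have h1 : (M - 1) ^ 2 = 0 := by
    have := Matrix.aeval_self_charpoly M
    rw [hch] at this
    simpa using this
  have h2 := congrArg (RingHom.mapMatrix (PadicInt.toZModPow (p := p) k)) h1
  rw [map_pow, map_sub, map_one, _root_.map_zero, RingHom.mapMatrix_apply] at h2
  rw [← tateMatZp_map_toZModPow]
  exact h2

/-- **inertia at `q ≠ p` is unipotent on every `E[p^k]`** (semistable `W`, odd `p`). -/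
theorem levelMat_sub_one_sq_of_inertia (hss : W.IsSemistableModel) (hp2 : p ≠ 2) {q : ℕ}
    (hq : q.Prime) (hqp : q ≠ p) {A : ValuationSubring Qb} (hA : A.LiesOverPrime q) {σ : GQ}
    (hσ : σ ∈ A.inertiaSubgroupIn ℚ) (k : ℕ) :
    (levelMat (WQ' W) p (WQ'_Δ_ne_zero hΔ) k σ - 1) ^ 2 = 0 := by
  have hTF := tateFrob_of_frobCore Fermat.Agent.S58lib.Cnt.frobCore W hΔ
  have hTU := Fermat.Agent.S58lib.Tr.tateUnip_of_multFixed W hΔ hss
    (Fermat.Agent.S58lib.multFixed W hΔ) hTF
  exact levelMat_sub_one_sq_of_charpoly W hΔ p σ (hTU p hp2 q hq hqp A hA σ hσ) k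

/-- `(1 + N)^n = 1 + n N` if `N² = 0`. -/
lemma one_add_pow_of_sq_zero {R : Type*} [Ring R] (N : R) (hN : N ^ 2 = 0) (n : ℕ) :
    (1 + N) ^ n = 1 + n • N := by
  induction n with
  | zero => simp
  | succ n ih =>
    rw [pow_succ, ih, add_smul, one_smul]
    have : N * N = 0 := by rw [← sq, hN]
    noncomm_ring
    rw [this]
    simp

include hΔ in
/-- **`σ ^ p` fixes `E[p]` for `σ` in an inertia group at `q ≠ p`** (semistable `W`, odd `p`). -/
theorem inertia_pow_smul_eq_self (hss : W.IsSemistableModel) (hp2 : p ≠ 2) {q : ℕ}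
    (hq : q.Prime) (hqp : q ≠ p) {A : ValuationSubring Qb} (hA : A.LiesOverPrime q) {σ : GQ}
    (hσ : σ ∈ A.inertiaSubgroupIn ℚ) (P : Pts (WQ' W)) (hP : p • P = 0) :
    (σ ^ p) • P = P := by
  have hΔ' := WQ'_Δ_ne_zero hΔ
  have hsq := levelMat_sub_one_sq_of_inertia W hΔ p hss hp2 hq hqp hA hσ 1
  set M := levelMat (WQ' W) p hΔ' 1 σ with hM
  have h1 : M ^ p = 1 := by
    have h2 : M = 1 + (M - 1) := by abel
    rw [h2, one_add_pow_of_sq_zero _ hsq]
    have h3 : p • (M - 1) = 0 := by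
      ext i j
      rw [Matrix.smul_apply, Matrix.zero_apply, nsmul_eq_mul]
      have : ((p : ℕ) : ZMod (p ^ 1)) = 0 := by
        rw [ZMod.natCast_eq_zero_iff, pow_one]
      rw [this, zero_mul]
    rw [h3, add_zero]
  apply smul_eq_self_of_levelMat_eq_one (WQ' W) p hΔ' 1 (σ ^ p)
  · rw [levelMat_pow', ← hM, h1]
  · rw [pow_one]
    exact hP

end Fermat.Agent.S52lib.Mod5
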